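/-
Program C (S55), package C3 (helper66's `LocalSpec`), leaf L7 `LeafResInflUnram`, helper9.

The unramified classes of degree `n = [L : F]` die on `L`:
`res_{E/L} ∘ infl_{F_n ≤ E} = 0` on `H²(Gal(F_n/F), F_nˣ)`, `E = L ⊔ F_n`.

Conditional on the leaves `LeafUnram`, `LeafNormCompositum` (local) and `LeafCycSurj`,
`LeafCycRes`, `LeafCycZero` (generic cyclic classes):

* `exists_gen_of_injective` : a subgroup of a finite cyclic group `⟨σ⟩`, given by an injective
  `ψ : H → G`, has a generator `τ` with `ψ τ = σ ^ d`, `d · ord τ = ord σ`;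
* `eq_of_fix_sup` : an automorphism of `L ⊔ M` fixing `L` and `M` pointwise is the identity;
* `psi_injective` : `Gal(L ⊔ M / L) → Gal(M / F)` is injective;
* `res_infl_core` : for `M/F` cyclic Galois such that every nonzero element of `F` is a norm from
  `L ⊔ M` to `L`, `res ∘ infl = 0` on `H²(Gal(M/F), Mˣ)`;
* `leafResInflUnram` : the leaf.
-/
import Fermat.Agent.S55.H66.LocalSpec
import Fermat.Agent.S55.H66.CycDefs

set_option autoImplicit false

noncomputable section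

namespace Fermat.Agent.S55.H9

open IntermediateField CategoryTheory groupCohomology Rep
open Fermat.Agent.S55.H66

/-- A subgroup of a finite cyclic group `⟨σ⟩`, given as the image of an injective homomorphism
`ψ : H → G`, is generated by (the image of) some `τ` with `ψ τ = σ ^ d`, `d · ord τ = ord σ`. -/
theorem exists_gen_of_injective {G H : Type*} [Group G] [Group H] [Finite G] [Finite H]
    (ψ : H →* G) (hψ : Function.Injective ψ) (σ : G) (hσ : ∀ g : G, g ∈ Subgroup.zpowers σ) :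
    ∃ (τ : H) (d : ℕ), (∀ h : H, h ∈ Subgroup.zpowers τ) ∧ ψ τ = σ ^ d ∧
      d * orderOf τ = orderOf σ := by
  have : IsCyclic G := ⟨σ, hσ⟩
  have : IsCyclic H := isCyclic_of_injective ψ hψ
  obtain ⟨τ₀, hτ₀⟩ := IsCyclic.exists_generator (α := H)
  obtain ⟨k, hk⟩ : ∃ k : ℕ, σ ^ k = ψ τ₀ := by
    have h1 : ψ τ₀ ∈ Submonoid.powers σ := mem_powers_iff_mem_zpowers.mpr (hσ _)
    exact h1
  have hn : 0 < orderOf σ := orderOf_pos σ
  have hdn : Nat.gcd (orderOf σ) k ∣ orderOf σ := Nat.gcd_dvd_left _ k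
  have hψτ : ψ (τ₀ ^ (Nat.gcdB (orderOf σ) k)) = σ ^ (Nat.gcd (orderOf σ) k) := by
    rw [map_zpow, ← hk, ← zpow_natCast σ (Nat.gcd (orderOf σ) k), Nat.gcd_eq_gcd_ab,
      zpow_add, zpow_mul, zpow_mul, zpow_natCast, zpow_natCast, pow_orderOf_eq_one, one_zpow,
      one_mul]
  have hord : orderOf (τ₀ ^ (Nat.gcdB (orderOf σ) k)) = orderOf σ / Nat.gcd (orderOf σ) k := by
    rw [← orderOf_injective ψ hψ, hψτ, orderOf_pow, Nat.gcd_eq_right hdn]
  have hord₀ : orderOf τ₀ = orderOf σ / Nat.gcd (orderOf σ) k := by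
    rw [← orderOf_injective ψ hψ, ← hk, orderOf_pow]
  refine ⟨τ₀ ^ (Nat.gcdB (orderOf σ) k), Nat.gcd (orderOf σ) k, ?_, hψτ, ?_⟩
  · have hcard : Nat.card (Subgroup.zpowers (τ₀ ^ (Nat.gcdB (orderOf σ) k))) = Nat.card H := by
      rw [Nat.card_zpowers, hord, ← hord₀, orderOf_eq_card_of_forall_mem_zpowers hτ₀]
    have htop := Subgroup.eq_top_of_card_eq _ hcard
    intro h
    rw [htop]
    exact Subgroup.mem_top h
  · rw [hord, Nat.mul_div_cancel' hdn]

/-- An automorphism of a compositum `L ⊔ M` which fixes `L` and `M` pointwise is the identity. -/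
theorem eq_of_fix_sup {F Ω : Type*} [Field F] [Field Ω] [Algebra F Ω] (L M : IntermediateField F Ω)
    (g : ↥(L ⊔ M) ≃ₐ[F] ↥(L ⊔ M))
    (hL : ∀ x (hx : x ∈ L), ((g ⟨x, (le_sup_left : L ≤ L ⊔ M) hx⟩ : ↥(L ⊔ M)) : Ω) = x)
    (hM : ∀ x (hx : x ∈ M), ((g ⟨x, (le_sup_right : M ≤ L ⊔ M) hx⟩ : ↥(L ⊔ M)) : Ω) = x)
    (z : ↥(L ⊔ M)) : g z = z := by
  let K' : IntermediateField F ↥(L ⊔ M) :=
    (AlgHom.equalizer (g : ↥(L ⊔ M) →ₐ[F] ↥(L ⊔ M)) (AlgHom.id F ↥(L ⊔ M))).toIntermediateField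
      (fun x hx => by
        rw [AlgHom.mem_equalizer] at hx ⊢
        rw [map_inv₀, hx]
        rfl)
  have hle : L ⊔ M ≤ K'.map (L ⊔ M).val := by
    refine sup_le (fun x hx => ?_) (fun x hx => ?_)
    · exact ⟨⟨x, (le_sup_left : L ≤ L ⊔ M) hx⟩, Subtype.ext (hL x hx), rfl⟩
    · exact ⟨⟨x, (le_sup_right : M ≤ L ⊔ M) hx⟩, Subtype.ext (hM x hx), rfl⟩
  obtain ⟨w, hw, hwz⟩ := hle z.2
  have : w = z := Subtype.ext hwz
  subst this
  exact hw

variable {q : ℕ} [Fact q.Prime]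
variable {F : Type} [Field F] [Algebra F (PadicAlgCl q)]

/-- `E` is finite over `L` (as `extendScalars`). -/
theorem finiteDimensional_ext {L E : IntermediateField F (PadicAlgCl q)} (h : L ≤ E)
    [FiniteDimensional F E] : FiniteDimensional L (extendScalars h) := by
  have : FiniteDimensional F (extendScalars h) :=
    Module.Finite.equiv (upEquiv h).symm.toLinearEquiv
  exact FiniteDimensional.right F L _

/-- `E` is Galois over `L` (as `extendScalars`) when it is Galois over `F`. -/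
theorem isGalois_ext {L E : IntermediateField F (PadicAlgCl q)} (h : L ≤ E)
    [IsGalois F E] : IsGalois L (extendScalars h) := by
  have : IsGalois F (extendScalars h) := IsGalois.of_algEquiv (upEquiv h).symm
  exact IsGalois.tower_top_of_isGalois F L _

section Core

variable (L M : IntermediateField F (PadicAlgCl q))

/-- The coefficient map of `res ∘ infl`: `Mˣ → (L ⊔ M)ˣ`, over
`Gal(L ⊔ M / L) → Gal(L ⊔ M / F) → Gal(M / F)`. -/
abbrev fco [Normal F M] :
    res ((resHom (le_sup_right : M ≤ L ⊔ M)).comp (upHom (le_sup_left : L ≤ L ⊔ M)))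
      (Rep.ofAlgebraAutOnUnits F M) ⟶
    Rep.ofAlgebraAutOnUnits L (extendScalars (le_sup_left : L ≤ L ⊔ M)) :=
  (resFunctor (upHom (le_sup_left : L ≤ L ⊔ M))).map (inflRep (le_sup_right : M ≤ L ⊔ M)) ≫
          upRep (le_sup_left : L ≤ L ⊔ M)

theorem fco_apply_coe [Normal F M] (a : Rep.ofAlgebraAutOnUnits F M) :
    (((Additive.toMul (Rep.toAdditive ((fco L M).hom a)) :
      (extendScalars (le_sup_left : L ≤ L ⊔ M))ˣ) : extendScalars (le_sup_left : L ≤ L ⊔ M)) :
        PadicAlgCl q) =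
      (((Additive.toMul (Rep.toAdditive a) : Mˣ) : M) : PadicAlgCl q) := by
  have h1 : (fco L M).hom a = (upRep (le_sup_left : L ≤ L ⊔ M)).hom
      ((inflRep (le_sup_right : M ≤ L ⊔ M)).hom a) := rfl
  rw [h1]
  exact upEquiv_symm_apply_coe (le_sup_left : L ≤ L ⊔ M) _

/-- `Gal(L ⊔ M / L) → Gal(M / F)` is injective. -/
theorem psi_injective [Normal F M] :
    Function.Injective ((resHom (le_sup_right : M ≤ L ⊔ M)).comp
      (upHom (le_sup_left : L ≤ L ⊔ M))) := by
  rw [injective_iff_map_eq_one]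
  intro g hg
  have hg' : ∀ z : ↥(L ⊔ M), upHom (le_sup_left : L ≤ L ⊔ M) g z = z := by
    apply eq_of_fix_sup
    · intro x hx
      rw [upHom_apply_coe]
      have h1 : (upEquiv (le_sup_left : L ≤ L ⊔ M)).symm ⟨x, (le_sup_left : L ≤ L ⊔ M) hx⟩ =
          algebraMap L (extendScalars (le_sup_left : L ≤ L ⊔ M)) ⟨x, hx⟩ := by
        apply Subtype.ext
        rw [upEquiv_symm_apply_coe]
        rfl
      rw [h1, AlgEquiv.commutes]
      rfl
    · intro x hx
      have h2 := resHom_apply (le_sup_right : M ≤ L ⊔ M) (upHom (le_sup_left : L ≤ L ⊔ M) g)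
        ⟨x, hx⟩
      rw [show resHom (le_sup_right : M ≤ L ⊔ M) (upHom (le_sup_left : L ≤ L ⊔ M) g) = 1 from hg]
        at h2
      exact h2.symm
  ext w
  have h3 := upHom_apply_coe (le_sup_left : L ≤ L ⊔ M) g (upEquiv (le_sup_left : L ≤ L ⊔ M) w)
  rw [hg', AlgEquiv.symm_apply_apply] at h3
  exact h3.symm

/-- `res ∘ infl` is the map induced by the composite homomorphism and coefficient map. -/
theorem res_infl_eq [Normal F M] (y : H2 (Rep.ofAlgebraAutOnUnits F M)) :
    (resH2 (le_sup_left : L ≤ L ⊔ M)).hom ((inflH2 (le_sup_right : M ≤ L ⊔ M)).hom y) =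
      (groupCohomology.map
        ((resHom (le_sup_right : M ≤ L ⊔ M)).comp (upHom (le_sup_left : L ≤ L ⊔ M)))
        (fco L M) 2).hom y := by
  rw [groupCohomology.map_comp]
  rfl

/-- **Core**: if `M/F` is cyclic Galois and every nonzero element of `F` is a norm from `L ⊔ M`
to `L`, then `res_{(L ⊔ M)/L} ∘ infl_{M ≤ L ⊔ M}` kills `H²(Gal(M/F), Mˣ)`. -/
theorem res_infl_core [FiniteDimensional F L] [IsGalois F L] [FiniteDimensional F M]
    [IsGalois F M] (hSurj : LeafCycSurj) (hRes : LeafCycRes) (hZero : LeafCycZero)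
    (hcyc : IsCyclic (M ≃ₐ[F] M))
    (hnorm : ∀ x : F, x ≠ 0 → ∃ y : extendScalars (le_sup_left : L ≤ L ⊔ M),
      Algebra.norm L y = algebraMap F L x)
    (y : H2 (Rep.ofAlgebraAutOnUnits F M)) :
    (resH2 (le_sup_left : L ≤ L ⊔ M)).hom ((inflH2 (le_sup_right : M ≤ L ⊔ M)).hom y) = 0 := by
  classical
  haveI : IsGalois F ↥(L ⊔ M) := ⟨⟩
  haveI : FiniteDimensional L (extendScalars (le_sup_left : L ≤ L ⊔ M)) :=
    finiteDimensional_ext (le_sup_left : L ≤ L ⊔ M)
  haveI : IsGalois L (extendScalars (le_sup_left : L ≤ L ⊔ M)) :=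
    isGalois_ext (le_sup_left : L ≤ L ⊔ M)
  obtain ⟨σ, hσ⟩ := hcyc.exists_generator
  obtain ⟨τ, d, hτ, hψτ, hd⟩ := exists_gen_of_injective _ (psi_injective L M) σ hσ
  obtain ⟨a, ha, rfl⟩ := hSurj ℤ (M ≃ₐ[F] M) (Rep.ofAlgebraAutOnUnits F M) σ hσ y
  rw [res_infl_eq, hRes ℤ (M ≃ₐ[F] M) _ (Rep.ofAlgebraAutOnUnits F M) _ _ (fco L M) σ τ d hσ hτ
    (psi_injective L M) hψτ hd a ha]
  have hinv : ∀ g : (extendScalars (le_sup_left : L ≤ L ⊔ M)) ≃ₐ[L]
      (extendScalars (le_sup_left : L ≤ L ⊔ M)),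
      (Rep.ofAlgebraAutOnUnits L (extendScalars (le_sup_left : L ≤ L ⊔ M))).ρ g
        ((fco L M).hom a) = (fco L M).hom a := by
    intro g
    rw [← Rep.hom_comm_apply]
    exact congrArg _ (ha _)
  rw [hZero ℤ _ (Rep.ofAlgebraAutOnUnits L (extendScalars (le_sup_left : L ≤ L ⊔ M))) τ hτ _ hinv]
  -- the invariant `a` comes from `F`
  obtain ⟨x, hx⟩ : ∃ x : F, algebraMap F M x = ((Additive.toMul (Rep.toAdditive a) : Mˣ) : M) :=
    (IsGalois.mem_range_algebraMap_iff_fixed (F := F) (E := M)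
      ((Additive.toMul (Rep.toAdditive a) : Mˣ) : M)).mpr (fun g =>
        congrArg (fun b : Rep.ofAlgebraAutOnUnits F M =>
          ((Additive.toMul (Rep.toAdditive b) : Mˣ) : M)) (ha g))
  have hx0 : x ≠ 0 := by
    rintro rfl
    rw [map_zero] at hx
    exact (Additive.toMul (Rep.toAdditive a) : Mˣ).ne_zero hx.symm
  obtain ⟨y₀, hy₀⟩ := hnorm x hx0
  have hy0 : y₀ ≠ 0 := by
    rintro rfl
    have h3 := Algebra.norm_eq_prod_automorphisms L
      (0 : extendScalars (le_sup_left : L ≤ L ⊔ M))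
    rw [Finset.prod_eq_zero (Finset.mem_univ 1) (map_zero _), hy₀] at h3
    have h4 : algebraMap F L x = 0 :=
      (algebraMap L (extendScalars (le_sup_left : L ≤ L ⊔ M))).injective (by rw [h3, map_zero])
    exact hx0 ((algebraMap F L).injective (by rw [h4, map_zero]))
  refine ⟨Rep.toAdditive.symm (Additive.ofMul (Units.mk0 y₀ hy0)), ?_⟩
  have hN := norm_ofAlgebraAutOnUnits_eq (K := L)
    (L := extendScalars (le_sup_left : L ≤ L ⊔ M)) (Units.mk0 y₀ hy0)
  apply Rep.toAdditive.injective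
  apply Additive.toMul.injective
  apply Units.ext
  apply Subtype.ext
  rw [fco_apply_coe]
  have h2 : (∑ g, (Rep.ofAlgebraAutOnUnits L (extendScalars (le_sup_left : L ≤ L ⊔ M))).ρ g
      (Rep.toAdditive.symm (Additive.ofMul (Units.mk0 y₀ hy0)))) =
      (Rep.ofAlgebraAutOnUnits L (extendScalars (le_sup_left : L ≤ L ⊔ M))).norm.hom
        (Rep.toAdditive.symm (Additive.ofMul (Units.mk0 y₀ hy0))) :=
    (LinearMap.sum_apply _ _ _).symm
  rw [h2, hN, Units.val_mk0, hy₀, ← hx]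
  rfl

end Core

/-- **Leaf L7 of C3** (`LeafResInflUnram`), from the leaves `LeafUnram`, `LeafNormCompositum`
and the generic cyclic-class leaves CY2, CY6, CY3. -/
theorem leafResInflUnram (q : ℕ) [Fact q.Prime] (hU : LeafUnram q) (hNC : LeafNormCompositum q)
    (hSurj : LeafCycSurj) (hRes : LeafCycRes) (hZero : LeafCycZero) : LeafResInflUnram q := by
  intro F _ _ _ _ _ L _ _ _ y
  have hn : 0 < Module.finrank F L := Module.finrank_pos
  obtain ⟨hfin, -, hgal, hcyc, -⟩ := hU F (Module.finrank F L) hn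
  exact res_infl_core L (unramExt q F (Module.finrank F L)) hSurj hRes hZero hcyc (hNC F L) y

end Fermat.Agent.S55.H9
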