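/-
Program C (S55), package C9b, leaf (D) `H1BoundStatement` (owner helper69): the ARITHMETIC half
(helper9).

For a number field `L ⊆ ℚ̄` and `T` = the primes of `𝓞 L` above `S`:

* `exists_valSubring_over` : every height one prime of `𝓞 L` is the centre of a valuation
  subring of `ℚ̄` lying over a rational prime;
* `valuation_eq_one_of_unitAt` : an element of `L` which is a unit of such a valuation subring
  has valuation one at its centre;
* `mem_pDivGroup_of_pow_eq` (AR1) : if `c ∈ Lˣ`, `b ∈ ℚ_S^×`, `ε ∈ E_S` and `c · ε = b ^ p`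
  then `c ∈ V_T = H87.pDivGroup L T p`;
* `mem_sUnits_iff_mem_sUnit` (AR2) : `E_S ∩ Lˣ = E_T(L)` (`L` unramified outside `S`);
* `mem_sUnits_of_pow_mem` (AR3) : `E_S` is `p`-saturated in `ℚ_S^×`;
* `finite_quot`, `card_quot` (AR4) : `V_T / (E_T · Lˣᵖ)` is finite of cardinality
  `p ^ H87.cNum p S L`;
* `mem_of_fixed` (AR5) : an element of `ℚ̄` fixed by `Gal(ℚ̄/L)` lies in `L`.
-/
import Mathlib
import Fermat.Agent.S55.H23.KummerDict
import Fermat.Agent.S55.H56.ValCore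
import Fermat.Agent.S55.H83.DictSurj
import Fermat.Agent.S55.H87.CountCard
import Fermat.Agent.S55.H42.GSDefs

set_option autoImplicit false

namespace Fermat.Agent.S55.H9

open IsDedekindDomain HeightOneSpectrum NumberField

local notation "Qb" => AlgebraicClosure ℚ
local notation "𝓑" => integralClosure ℤ (AlgebraicClosure ℚ)

variable {S : Finset Nat.Primes} (L : IntermediateField ℚ Qb) [NumberField L]

/-! ### Valuation subrings over a prime of `𝓞 L` -/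

/-- Every height one prime of `𝓞 L` is the centre of a valuation subring of `ℚ̄` lying over a
rational prime. -/
theorem exists_valSubring_over (w : HeightOneSpectrum (𝓞 L)) :
    ∃ (q : Nat.Primes) (A : ValuationSubring Qb), A.LiesOverPrime (q : ℕ) ∧
      (((q : ℕ) : ℤ) : 𝓞 L) ∈ w.asIdeal ∧
      ∀ x : 𝓞 L, x ∈ w.asIdeal ↔ (((x : L)) : Qb) ∈ A.nonunits := by
  obtain ⟨ℓ, hℓ, hv⟩ := H83.exists_prime_natCast_mem w
  let _ : Algebra (𝓞 L) 𝓑 := (S14.H4.inclInt L).toAlgebra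
  have hint : Algebra.IsIntegral (𝓞 L) 𝓑 := ⟨fun b => by
    have hb : IsIntegral ℤ b := Algebra.IsIntegral.isIntegral b
    exact hb.tower_top⟩
  obtain ⟨Q, -, hQprime, hQP⟩ := Ideal.exists_ideal_over_prime_of_isIntegral w.asIdeal
    (⊥ : Ideal 𝓑) (by
      have h0 : algebraMap (𝓞 L) 𝓑 = S14.H4.inclInt L := rfl
      rw [h0, Ideal.comap_bot_of_injective _ (S14.H4.inclInt_injective L)]
      exact bot_le)
  have hmem : ∀ x : 𝓞 L, S14.H4.inclInt L x ∈ Q ↔ x ∈ w.asIdeal := by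
    intro x
    rw [← hQP]
    rfl
  have hQℓ : ∀ a : ℤ, algebraMap ℤ 𝓑 a ∈ Q → (ℓ : ℤ) ∣ a := by
    intro a ha
    by_contra hnd
    have ha' : (a : 𝓞 L) ∈ w.asIdeal := by
      rw [← hmem]
      have h1 : S14.H4.inclInt L (a : 𝓞 L) = algebraMap ℤ 𝓑 a := by
        rw [map_intCast, eq_intCast]
      rw [h1]
      exact ha
    have hcop : IsCoprime (ℓ : ℤ) a :=
      (Nat.prime_iff_prime_int.mp hℓ).irreducible.coprime_iff_not_dvd.mpr hnd
    obtain ⟨u, t, hut⟩ := hcop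
    have h1 : ((u * ℓ + t * a : ℤ) : 𝓞 L) ∈ w.asIdeal := by
      push_cast
      exact w.asIdeal.add_mem (w.asIdeal.mul_mem_left _ hv) (w.asIdeal.mul_mem_left _ ha')
    rw [hut] at h1
    exact w.isPrime.ne_top ((Ideal.eq_top_iff_one _).mpr (by simpa using h1))
  have hℓQ : (ℓ : 𝓑) ∈ Q := by
    have h1 : S14.H4.inclInt L (ℓ : 𝓞 L) = (ℓ : 𝓑) := map_natCast _ _
    rw [← h1, hmem]
    exact hv
  have h1Q : (1 : 𝓑) ∉ Q := (Ideal.ne_top_iff_one Q).mp hQprime.ne_top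
  refine ⟨⟨ℓ, hℓ⟩, S14.H4.valSubring Q ℓ hℓ hQℓ,
    S14.H4.liesOverPrime_valSubring Q ℓ hℓ hQℓ hℓQ, ?_, fun x => ⟨fun hx => ?_, fun hx => ?_⟩⟩
  · have : (((ℓ : ℕ) : ℤ) : 𝓞 L) = ((ℓ : ℕ) : 𝓞 L) := by push_cast; rfl
    rw [this]
    exact hv
  · exact S14.H4.mem_nonunits_valSubring Q ℓ hℓ hQℓ _ 1 (S14.H4.inclInt L x) h1Q
      ((hmem x).mpr hx) (by simp)
  · by_contra hxw
    have hxQ : S14.H4.inclInt L x ∉ Q := fun h => hxw ((hmem x).mp h)
    rw [ValuationSubring.mem_nonunits_iff_or] at hx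
    rcases hx with hx | hx
    · apply hxQ
      have : S14.H4.inclInt L x = 0 := Subtype.ext (by simpa using hx)
      rw [this]
      exact Q.zero_mem
    · apply hx
      refine (S14.H4.mem_valSubring_iff Q ℓ hℓ hQℓ _).mpr ⟨S14.H4.inclInt L x, 1, hxQ, ?_⟩
      have hx0 : (((x : L)) : Qb) ≠ 0 := by
        intro h0
        apply hxQ
        have : S14.H4.inclInt L x = 0 := Subtype.ext (by simpa using h0)
        rw [this]
        exact Q.zero_mem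
      rw [S14.H4.coe_inclInt]
      simp [hx0]

variable {L}

/-- An element of `L` of valuation `< 1` at the centre `w` of `A` is a non-unit of `A`. -/
theorem mem_nonunits_of_valuation_lt_one {w : HeightOneSpectrum (𝓞 L)} {A : ValuationSubring Qb}
    (hAw : ∀ x : 𝓞 L, x ∈ w.asIdeal ↔ (((x : L)) : Qb) ∈ A.nonunits) (t : L)
    (ht : w.valuation L t < 1) : ((t : L) : Qb) ∈ A.nonunits := by
  obtain ⟨n, d, hnd⟩ := w.exists_primeCompl_mul_eq_of_integer t ht.le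
  have hd : (d : 𝓞 L) ∉ w.asIdeal := d.2
  have hdA : (((d : 𝓞 L) : L) : Qb) ∉ A.nonunits := fun h => hd ((hAw _).mpr h)
  rw [ValuationSubring.mem_nonunits_iff_or, not_or, not_not] at hdA
  have hd0 : (((d : 𝓞 L) : L) : Qb) ≠ 0 := hdA.1
  have hdL : (((d : 𝓞 L)) : L) ≠ 0 := fun h => hd0 (by rw [h]; rfl)
  -- `n ∈ w`
  have hn : n ∈ w.asIdeal := by
    rw [← HeightOneSpectrum.valuation_lt_one_iff_mem (K := L)]
    have h1 : w.valuation L (algebraMap (𝓞 L) L n) =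
        w.valuation L t * w.valuation L (algebraMap (𝓞 L) L (d : 𝓞 L)) := by
      rw [← map_mul]
      congr 1
      exact hnd.symm
    have h2 : w.valuation L (algebraMap (𝓞 L) L (d : 𝓞 L)) ≤ 1 := w.valuation_le_one _
    rw [h1]
    calc w.valuation L t * w.valuation L (algebraMap (𝓞 L) L (d : 𝓞 L))
        ≤ w.valuation L t * 1 := mul_le_mul_right h2 _
      _ < 1 := by rw [mul_one]; exact ht
  have hnA : (((n : 𝓞 L) : L) : Qb) ∈ A.nonunits := (hAw n).mp hn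
  have h1 : ((t : L) : Qb) = (((n : 𝓞 L) : L) : Qb) * ((((d : 𝓞 L) : L)) : Qb)⁻¹ := by
    rw [eq_mul_inv_iff_mul_eq₀ hd0]
    have := congrArg (fun z : L => (z : Qb)) hnd
    simpa using this
  rw [h1, ValuationSubring.mem_nonunits_iff, map_mul]
  have h3 : A.valuation (((n : 𝓞 L) : L) : Qb) < 1 := (ValuationSubring.mem_nonunits_iff _).mp hnA
  have h4 : A.valuation ((((d : 𝓞 L) : L)) : Qb)⁻¹ ≤ 1 := (A.valuation_le_one_iff _).mpr hdA.2
  calc A.valuation (((n : 𝓞 L) : L) : Qb) * A.valuation ((((d : 𝓞 L) : L)) : Qb)⁻¹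
      ≤ A.valuation (((n : 𝓞 L) : L) : Qb) * 1 := mul_le_mul_right h4 _
    _ < 1 := by rw [mul_one]; exact h3

/-- An element of `Lˣ` which is a unit of `A` has valuation one at the centre of `A`. -/
theorem valuation_eq_one_of_unitAt {w : HeightOneSpectrum (𝓞 L)} {A : ValuationSubring Qb}
    (hAw : ∀ x : 𝓞 L, x ∈ w.asIdeal ↔ (((x : L)) : Qb) ∈ A.nonunits) (t : L) (ht0 : t ≠ 0)
    (h1 : ((t : L) : Qb) ∈ A) (h2 : (((t : L) : Qb))⁻¹ ∈ A) : w.valuation L t = 1 := by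
  have ht0' : ((t : L) : Qb) ≠ 0 := fun h => ht0 (Subtype.ext h)
  rcases lt_trichotomy (w.valuation L t) 1 with h | h | h
  · exfalso
    have h3 := mem_nonunits_of_valuation_lt_one hAw t h
    rw [ValuationSubring.mem_nonunits_iff_or] at h3
    rcases h3 with h3 | h3
    · exact ht0' h3
    · exact h3 h2
  · exact h
  · exfalso
    have h3 : w.valuation L t⁻¹ < 1 := by
      rw [map_inv₀]
      exact inv_lt_one_of_one_lt₀ h
    have h4 := mem_nonunits_of_valuation_lt_one hAw t⁻¹ h3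
    rw [ValuationSubring.mem_nonunits_iff_or] at h4
    have e : ((t⁻¹ : L) : Qb) = (((t : L) : Qb))⁻¹ := rfl
    rw [e, inv_inv] at h4
    rcases h4 with h4 | h4
    · exact ht0' (inv_eq_zero.mp h4)
    · exact h4 h1

/-! ### (AR1) -/

/-- **(AR1)**  If `c ∈ Lˣ`, `b` is a unit of `ℚ_S`, `ε` an `S`-unit of `ℚ_S` and `c · ε = b ^ p`,
then `p ∣ ord_w c` at every prime `w` of `𝓞 L` not above `S`. -/
theorem mem_pDivGroup_of_pow_eq {p : ℕ} (c : (↥L)ˣ) (b ε : Qbˣ) (hb : b ∈ H42.qsUnits S)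
    (hε : ε ∈ H42.sUnits S) (h : (((c : ↥L)) : Qb) * (ε : Qb) = (b : Qb) ^ p) :
    c ∈ H87.pDivGroup L (H87.placesOver L S) p := by
  intro w hw
  obtain ⟨q, A, hA, hqw, hAw⟩ := exists_valSubring_over L w
  have hqS : q ∉ S := fun hq => hw ((H87.mem_placesOver L S w).mpr ⟨q, hq, hqw⟩)
  obtain ⟨K, hK, hbK⟩ := hb
  obtain ⟨m, hm1, hm2⟩ := H56.exists_zpow_unit hK q hqS A hA hbK b.ne_zero
  obtain ⟨hε1, hε2⟩ := hε.2 q hqS A hA
  have hq0 : (((q : ℕ) : ℕ) : L) ≠ 0 := Nat.cast_ne_zero.mpr q.2.ne_zero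
  have hq0' : (((q : ℕ) : ℕ) : Qb) ≠ 0 := Nat.cast_ne_zero.mpr q.2.ne_zero
  let qU : (↥L)ˣ := Units.mk0 (((q : ℕ) : ℕ) : L) hq0
  let tU : (↥L)ˣ := c * (qU ^ ((p : ℤ) * m))⁻¹
  have hc : c = tU * qU ^ ((p : ℤ) * m) := by
    simp only [tU]
    rw [inv_mul_cancel_right]
  -- `tU` is a unit of `A`
  have hqcoe : (((qU : (↥L)ˣ) : ↥L) : Qb) = (((q : ℕ) : ℕ) : Qb) := by
    simp [qU]
  have hzp : ((((qU ^ ((p : ℤ) * m) : (↥L)ˣ)) : ↥L) : Qb) = (((q : ℕ) : ℕ) : Qb) ^ ((p : ℤ) * m) := by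
    rw [Units.val_zpow_eq_zpow_val]
    have : ((((qU : (↥L)ˣ) : ↥L) ^ ((p : ℤ) * m) : ↥L) : Qb) =
        ((((qU : (↥L)ˣ) : ↥L)) : Qb) ^ ((p : ℤ) * m) :=
      map_zpow₀ (algebraMap (↥L) Qb) _ _
    rw [this, hqcoe]
  have htcoe : (((tU : (↥L)ˣ) : ↥L) : Qb) =
      (((c : ↥L)) : Qb) / (((q : ℕ) : ℕ) : Qb) ^ ((p : ℤ) * m) := by
    have h1 : (((tU : (↥L)ˣ) : ↥L) : Qb) =
        (((c : ↥L)) : Qb) * (((((qU ^ ((p : ℤ) * m) : (↥L)ˣ)) : ↥L) : Qb))⁻¹ := by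
      simp only [tU, Units.val_mul, Units.val_inv_eq_inv_val]
      rfl
    rw [h1, hzp, div_eq_mul_inv]
  have hε0 : (ε : Qb) ≠ 0 := ε.ne_zero
  have hceq : (((c : ↥L)) : Qb) = (b : Qb) ^ p * ((ε⁻¹ : Qbˣ) : Qb) := by
    rw [← h, Units.val_inv_eq_inv_val, mul_assoc, mul_inv_cancel₀ hε0, mul_one]
  have hpow : (((q : ℕ) : ℕ) : Qb) ^ ((p : ℤ) * m) = ((((q : ℕ) : ℕ) : Qb) ^ m) ^ p := by
    rw [mul_comm, zpow_mul, zpow_natCast]
  have ht1 : (((tU : (↥L)ˣ) : ↥L) : Qb) ∈ A := by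
    rw [htcoe, hceq, hpow]
    have e : (b : Qb) ^ p * ((ε⁻¹ : Qbˣ) : Qb) / ((((q : ℕ) : ℕ) : Qb) ^ m) ^ p =
        ((b : Qb) / (((q : ℕ) : ℕ) : Qb) ^ m) ^ p * ((ε⁻¹ : Qbˣ) : Qb) := by
      rw [div_pow]
      ring
    rw [e]
    exact A.mul_mem _ _ (A.pow_mem hm1 p) hε2
  have ht2 : ((((tU : (↥L)ˣ) : ↥L) : Qb))⁻¹ ∈ A := by
    rw [htcoe, hceq, hpow]
    have hb0 : (b : Qb) ≠ 0 := b.ne_zero
    have hqm : (((q : ℕ) : ℕ) : Qb) ^ m ≠ 0 := zpow_ne_zero m hq0'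
    have e : ((b : Qb) ^ p * ((ε⁻¹ : Qbˣ) : Qb) / ((((q : ℕ) : ℕ) : Qb) ^ m) ^ p)⁻¹ =
        ((((q : ℕ) : ℕ) : Qb) ^ m / (b : Qb)) ^ p * (ε : Qb) := by
      rw [Units.val_inv_eq_inv_val, div_pow]
      field_simp
    rw [e]
    exact A.mul_mem _ _ (A.pow_mem hm2 p) hε1
  have hval : w.valuation L ((tU : (↥L)ˣ) : ↥L) = 1 :=
    valuation_eq_one_of_unitAt hAw _ tU.ne_zero ht1 ht2
  have hord : H83.ordv L w tU = 0 := (H83.ordv_eq_zero_iff w tU).mpr hval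
  rw [hc, H83.ordv_mul, hord, zero_add, H23.Kum.ordv_zpow, mul_assoc]
  exact dvd_mul_right _ _

/-! ### (AR2), (AR3) -/

/-- The image in `ℚ̄ˣ` of a unit of `L`. -/
noncomputable def toQb (e : (↥L)ˣ) : Qbˣ := Units.map (algebraMap (↥L) Qb).toMonoidHom e

omit [NumberField L] in
@[simp] theorem coe_toQb (e : (↥L)ˣ) : ((toQb e : Qbˣ) : Qb) = (((e : ↥L)) : Qb) := rfl

omit [NumberField L] in
theorem coe_toQb_inv (e : (↥L)ˣ) : (((toQb e)⁻¹ : Qbˣ) : Qb) = ((((e : (↥L)ˣ) : ↥L)) : Qb)⁻¹ := by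
  rw [Units.val_inv_eq_inv_val]
  rfl

omit [NumberField L] in
theorem coe_inv_unit (e : (↥L)ˣ) : ((((e⁻¹ : (↥L)ˣ) : ↥L)) : Qb) = ((((e : (↥L)ˣ) : ↥L)) : Qb)⁻¹ := by
  rw [Units.val_inv_eq_inv_val]
  rfl

/-- **(AR2)**  `E_S ∩ Lˣ = E_T(L)`: a unit of `L` is an `S`-unit of `ℚ_S` iff it is a `T`-unit
of `L`, `T` the primes of `𝓞 L` above `S` (`L` unramified outside `S`). -/
theorem mem_sUnits_iff_mem_sUnit (hL : L.IsUnramifiedOutside S) (e : (↥L)ˣ) :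
    toQb e ∈ H42.sUnits S ↔ e ∈ H83.sUnit L (H87.placesOver L S) := by
  constructor
  · intro he w hw
    have hw' : w ∉ H87.placesOver L S := fun h => hw (Finset.mem_coe.mpr h)
    obtain ⟨q, A, hA, hqw, hAw⟩ := exists_valSubring_over L w
    have hqS : q ∉ S := fun hq => hw' ((H87.mem_placesOver L S w).mpr ⟨q, hq, hqw⟩)
    obtain ⟨h1, h2⟩ := he.2 q hqS A hA
    rw [coe_toQb] at h1
    rw [coe_toQb_inv] at h2
    exact valuation_eq_one_of_unitAt hAw _ e.ne_zero h1 h2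
  · intro he
    refine ⟨⟨L, hL, (e : ↥L).2⟩, fun q hq A hA => ?_⟩
    have hw := H23.Kum.placeA_notMem_placesOver L hq hA
    have hw' : H23.Kum.placeA L q.2.ne_zero hA ∉ ((H87.placesOver L S : Finset _) : Set _) :=
      fun h => hw (Finset.mem_coe.mp h)
    have h1 : (H23.Kum.placeA L q.2.ne_zero hA).valuation L ((e : (↥L)ˣ) : ↥L) = 1 := he _ hw'
    have h2 : (H23.Kum.placeA L q.2.ne_zero hA).valuation L (((e⁻¹ : (↥L)ˣ)) : ↥L) = 1 :=
      (inv_mem he) _ hw'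
    refine ⟨?_, ?_⟩
    · rw [coe_toQb]
      exact H23.Kum.mem_of_valuation_le_one L q.2.ne_zero hA _ h1.le
    · rw [coe_toQb_inv, ← coe_inv_unit]
      exact H23.Kum.mem_of_valuation_le_one L q.2.ne_zero hA _ h2.le

omit [NumberField L] in
/-- **(AR3)**  `E_S` is saturated in `ℚ_S^×`: a unit of `ℚ_S` a power of which is an `S`-unit is
an `S`-unit. -/
theorem mem_sUnits_of_pow_mem {p : ℕ} (hp : p ≠ 0) (x : Qbˣ) (hx : x ∈ H42.qsUnits S)
    (h : x ^ p ∈ H42.sUnits S) : x ∈ H42.sUnits S := by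
  refine ⟨hx, fun q hq A hA => ?_⟩
  obtain ⟨h1, h2⟩ := h.2 q hq A hA
  have key : ∀ y : Qb, y ^ p ∈ A → y ∈ A := by
    intro y hy
    rw [← A.valuation_le_one_iff] at hy ⊢
    rw [map_pow] at hy
    exact (pow_le_one_iff hp).mp hy
  refine ⟨key _ (by rw [← Units.val_pow_eq_pow_val]; exact h1), key _ ?_⟩
  rw [← Units.val_pow_eq_pow_val, inv_pow]
  exact h2

/-! ### (AR4) -/

variable (L) in
/-- **(AR4a)**  `V_T / (E_T · Lˣᵖ)` is finite. -/
theorem finite_quot {p : ℕ} (hp : p.Prime) (T : Finset (HeightOneSpectrum (𝓞 L))) :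
    Finite (↥(H87.pDivGroup L T p) ⧸
      (H83.sUnit L T ⊔ H87.powGroup L p).subgroupOf (H87.pDivGroup L T p)) := by
  apply Nat.finite_of_card_ne_zero
  rw [← Subgroup.index_eq_card]
  exact H87.relIndex_sup_ne_zero L T p hp.ne_zero

variable (L) in
/-- **(AR4b)**  `#(V_T / (E_T · Lˣᵖ)) = p ^ c`, `c = H87.cNum p S L`, for the primes `T` of `L`
above `S`. -/
theorem card_quot {p : ℕ} (hp : p.Prime) (S : Finset Nat.Primes) :
    Nat.card (↥(H87.pDivGroup L (H87.placesOver L S) p) ⧸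
      (H83.sUnit L (H87.placesOver L S) ⊔ H87.powGroup L p).subgroupOf
        (H87.pDivGroup L (H87.placesOver L S) p)) = p ^ H87.cNum p S L := by
  rw [← Subgroup.index_eq_card, H87.cNum_eq]
  exact H87.relIndex_sup_eq_pow L (H87.placesOver L S) p hp

/-! ### (AR5) -/

omit [NumberField L] in
/-- **(AR5)**  An element of `ℚ̄` fixed by `Gal(ℚ̄/L)` lies in `L`. -/
theorem mem_of_fixed (u : Qb) (h : ∀ σ ∈ L.fixingSubgroup, σ u = u) : u ∈ L := by
  rw [← InfiniteGalois.fixedField_fixingSubgroup L, IntermediateField.mem_fixedField_iff]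
  exact h

end Fermat.Agent.S55.H9
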